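/-
ALPHA (helper6), package UD, part 1: **a `𝒱`-Hopf order contains every character.**
`𝒱` a valuation subring of a field `K`, `V` a finite abelian group, `H ⊂ Map(V, K)` a finitely
generated `𝒱`-subalgebra of `𝒱`-valued functions, separating points and stable under the
comultiplication `f ↦ ((x,y) ↦ f (x+y))`.  Then every multiplicative `χ : V → K` lies in `H`.

Proof: `H` is free over `𝒱` with a basis `h_k` which is a `K`-basis of `Map(V, K)`; write
`χ = ∑ t_k h_k`.  Comparing coefficients of `h_i ⊗ h_j` in `χ(x+y) = χ(x) χ(y)` gives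
`t_i t_j = ∑_k γ_ijk t_k` with `γ_ijk ∈ 𝒱`, and `1 = ∑ h_k(0) t_k`; so `∑ 𝒱 t_k` is a subring of `K`,
finitely generated as a `𝒱`-module, hence integral over `𝒱`, hence contained in `𝒱`.
-/
import Mathlib
import Fermat.Agent.Lib.Alpha.Hopf.Mul

set_option autoImplicit false
set_option linter.unusedSectionVars false

namespace Fermat.Agent.Alpha

section Char

variable {K : Type} [Field K] (𝒱 : ValuationSubring K) {V : Type} [AddCommGroup V] [Fintype V]

/-- a finitely generated module of `K`-valued functions over a valuation subring is free -/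
theorem alpu_free (N : Submodule 𝒱 (V → K)) (hfg : N.FG) : Module.Free 𝒱 N := by
  have : Module.Finite 𝒱 N := Module.Finite.iff_fg.mpr hfg
  have : Module.Flat 𝒱 N := by
    rw [Module.Flat.flat_iff_torsion_eq_bot_of_isBezout, ← Submodule.isTorsionFree_iff_torsion_eq_bot]
    infer_instance
  exact Module.free_of_flat_of_isLocalRing

variable (H : Subalgebra 𝒱 (V → K))

/-- separation gives scaled indicator functions in `H` -/
theorem alpu_exists_indicator [DecidableEq V] (hint : ∀ f ∈ H, ∀ x, f x ∈ 𝒱)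
    (hsep : ∀ x y : V, x ≠ y → ∃ f ∈ H, f x ≠ f y) (x : V) :
    ∃ e ∈ H, e x ≠ 0 ∧ ∀ z, z ≠ x → e z = 0 := by
  have hfam : ∀ y : {y : V // y ≠ x}, ∃ f ∈ H, f x ≠ 0 ∧ f y.1 = 0 := by
    intro y
    obtain ⟨f, hf, hne⟩ := hsep x y.1 y.2.symm
    have hval : ∀ z, (algebraMap 𝒱 (V → K) ⟨f y.1, hint f hf y.1⟩) z = f y.1 := fun z => rfl
    refine ⟨f - algebraMap 𝒱 (V → K) ⟨f y.1, hint f hf y.1⟩,
      H.sub_mem hf (H.algebraMap_mem _), ?_, ?_⟩
    · rw [Pi.sub_apply, hval]; exact sub_ne_zero.mpr hne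
    · rw [Pi.sub_apply, hval, sub_self]
  choose F hF hFx hFy using hfam
  refine ⟨∏ y, F y, H.prod_mem fun y _ => hF y, ?_, ?_⟩
  · rw [Finset.prod_apply]
    exact Finset.prod_ne_zero_iff.mpr fun y _ => hFx y
  · intro z hz
    rw [Finset.prod_apply]
    exact Finset.prod_eq_zero (Finset.mem_univ (⟨z, hz⟩ : {y : V // y ≠ x})) (hFy _)

/-- `H` spans all functions over `K` -/
theorem alpu_span_eq_top [DecidableEq V] (hint : ∀ f ∈ H, ∀ x, f x ∈ 𝒱)
    (hsep : ∀ x y : V, x ≠ y → ∃ f ∈ H, f x ≠ f y) :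
    Submodule.span K (H : Set (V → K)) = ⊤ := by
  rw [eq_top_iff]
  intro f _
  choose e he hex hez using alpu_exists_indicator 𝒱 H hint hsep
  have hf : f = ∑ x, (f x / e x x) • e x := by
    funext z
    rw [Finset.sum_apply, Finset.sum_eq_single z]
    · rw [Pi.smul_apply, smul_eq_mul, div_mul_cancel₀ _ (hex z)]
    · intro x _ hxz
      rw [Pi.smul_apply, hez x z (Ne.symm hxz), smul_zero]
    · intro h; exact absurd (Finset.mem_univ z) h
  rw [hf]
  exact Submodule.sum_mem _ fun x _ => Submodule.smul_mem _ _ (Submodule.subset_span (he x))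

/-- **A `𝒱`-Hopf order contains every character.** -/
theorem alpu_char_mem_subalgebra (hfg : H.toSubmodule.FG) (hint : ∀ f ∈ H, ∀ x, f x ∈ 𝒱)
    (hsep : ∀ x y : V, x ≠ y → ∃ f ∈ H, f x ≠ f y)
    (hcomul : ∀ f ∈ H, ∃ (n : ℕ) (a b : Fin n → V → K), (∀ t, a t ∈ H) ∧ (∀ t, b t ∈ H) ∧
      ∀ x y, f (x + y) = ∑ t, a t x * b t y)
    (χ : V → K) (h0 : χ 0 = 1) (hmul : ∀ x y, χ (x + y) = χ x * χ y) : χ ∈ H := by
  classical
  set N : Submodule 𝒱 (V → K) := H.toSubmodule with hN
  have : Module.Free 𝒱 N := alpu_free 𝒱 N hfg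
  have : Module.Finite 𝒱 N := Module.Finite.iff_fg.mpr hfg
  let bas := Module.Free.chooseBasis 𝒱 N
  set ι := Module.Free.ChooseBasisIndex 𝒱 N with hι
  -- the basis as functions
  set h : ι → V → K := fun k => ((bas k : N) : V → K) with hh
  have hhH : ∀ k, h k ∈ H := fun k => (bas k).2
  have hli𝒱 : LinearIndependent 𝒱 h :=
    bas.linearIndependent.map' N.subtype (Submodule.ker_subtype N)
  have hliK : LinearIndependent K h := hli𝒱.localization K (nonZeroDivisors 𝒱)
  -- coordinates of elements of `H`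
  have hcoord : ∀ f ∈ H, ∃ c : ι → 𝒱, f = ∑ k, (c k : K) • h k := by
    intro f hf
    refine ⟨fun k => bas.repr ⟨f, hf⟩ k, ?_⟩
    have h2 : (⟨f, hf⟩ : N) = ∑ k, bas.repr ⟨f, hf⟩ k • bas k := (bas.sum_repr ⟨f, hf⟩).symm
    have h3 : f = ((∑ k, bas.repr ⟨f, hf⟩ k • bas k : N) : V → K) :=
      congrArg (fun g : N => (g : V → K)) h2
    rw [Submodule.coe_sum] at h3
    refine h3.trans (Finset.sum_congr rfl fun k _ => ?_)
    rfl
  -- `h` spans over `K`
  have hspan : ∀ f : V → K, ∃ c : ι → K, f = ∑ k, c k • h k := by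
    intro f
    have hf : f ∈ Submodule.span K (H : Set (V → K)) := by
      rw [alpu_span_eq_top 𝒱 H hint hsep]; trivial
    have hle : Submodule.span K (H : Set (V → K)) ≤ Submodule.span K (Set.range h) := by
      rw [Submodule.span_le]
      intro g hg
      obtain ⟨c, hc⟩ := hcoord g hg
      rw [hc]
      exact Submodule.sum_mem _ fun k _ =>
        Submodule.smul_mem _ _ (Submodule.subset_span ⟨k, rfl⟩)
    obtain ⟨c, hc⟩ := (Submodule.mem_span_range_iff_exists_fun K).mp (hle hf)
    exact ⟨c, hc.symm⟩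
  obtain ⟨t, ht⟩ := hspan χ
  -- comultiplication of the basis
  choose n a b ha hb hab using fun k => hcomul (h k) (hhH k)
  choose ca hca using fun k (s : Fin (n k)) => hcoord (a k s) (ha k s)
  choose cb hcb using fun k (s : Fin (n k)) => hcoord (b k s) (hb k s)
  -- structure constants
  set γ : ι → ι → ι → 𝒱 := fun i j k => ∑ s, ca k s i * cb k s j with hγ
  -- the key relation
  have hrel : ∀ i j, t i * t j = ∑ k, (γ i j k : K) * t k := by
    have hind := alph_indep_prod hliK hliK
    rw [Fintype.linearIndependent_iff] at hind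
    have hzero : ∑ ij : ι × ι, (t ij.1 * t ij.2 - ∑ k, (γ ij.1 ij.2 k : K) * t k) •
        (fun p : V × V => h ij.1 p.1 * h ij.2 p.2) = 0 := by
      funext p
      obtain ⟨x, y⟩ := p
      simp only [Finset.sum_apply, Pi.smul_apply, smul_eq_mul, Pi.zero_apply]
      have hχx : χ x = ∑ i, t i * h i x := by
        have := congrFun ht x
        simpa [Finset.sum_apply] using this
      have hχy : χ y = ∑ j, t j * h j y := by
        have := congrFun ht y
        simpa [Finset.sum_apply] using this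
      have hχxy : χ (x + y) = ∑ k, t k * h k (x + y) := by
        have := congrFun ht (x + y)
        simpa [Finset.sum_apply] using this
      have hax : ∀ k s, a k s x = ∑ i, (ca k s i : K) * h i x := by
        intro k s
        have := congrFun (hca k s) x
        simpa [Finset.sum_apply] using this
      have hby : ∀ k s, b k s y = ∑ j, (cb k s j : K) * h j y := by
        intro k s
        have := congrFun (hcb k s) y
        simpa [Finset.sum_apply] using this
      have key : χ x * χ y = χ (x + y) := (hmul x y).symm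
      -- expand both sides
      have hL : χ x * χ y = ∑ ij : ι × ι, t ij.1 * t ij.2 * (h ij.1 x * h ij.2 y) := by
        rw [hχx, hχy, Finset.sum_mul_sum, Fintype.sum_prod_type]
        refine Finset.sum_congr rfl fun i _ => Finset.sum_congr rfl fun j _ => ?_
        ring
      have hR : χ (x + y) =
          ∑ ij : ι × ι, (∑ k, (γ ij.1 ij.2 k : K) * t k) * (h ij.1 x * h ij.2 y) := by
        rw [hχxy]
        have h1 : ∀ k, h k (x + y) =
            ∑ ij : ι × ι, ((∑ s, ca k s ij.1 * cb k s ij.2 : 𝒱) : K) * (h ij.1 x * h ij.2 y) := by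
          intro k
          rw [hab k x y, Fintype.sum_prod_type]
          have e1 : ∀ s, a k s x * b k s y =
              ∑ i, ∑ j, (ca k s i : K) * (cb k s j : K) * (h i x * h j y) := by
            intro s
            rw [hax, hby, Finset.sum_mul_sum]
            refine Finset.sum_congr rfl fun i _ => Finset.sum_congr rfl fun j _ => ?_
            ring
          simp_rw [e1]
          rw [Finset.sum_comm]
          refine Finset.sum_congr rfl fun i _ => ?_
          rw [Finset.sum_comm]
          refine Finset.sum_congr rfl fun j _ => ?_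
          push_cast
          rw [Finset.sum_mul]
        simp_rw [h1, Finset.mul_sum]
        rw [Finset.sum_comm]
        refine Finset.sum_congr rfl fun ij _ => ?_
        rw [Finset.sum_mul]
        refine Finset.sum_congr rfl fun k _ => ?_
        simp only [hγ]
        ring
      calc ∑ ij : ι × ι, (t ij.1 * t ij.2 - ∑ k, (γ ij.1 ij.2 k : K) * t k) *
            (h ij.1 x * h ij.2 y)
          = ∑ ij : ι × ι, t ij.1 * t ij.2 * (h ij.1 x * h ij.2 y) -
            ∑ ij : ι × ι, (∑ k, (γ ij.1 ij.2 k : K) * t k) * (h ij.1 x * h ij.2 y) := by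
            rw [← Finset.sum_sub_distrib]
            exact Finset.sum_congr rfl fun ij _ => sub_mul _ _ _
        _ = 0 := by rw [← hL, ← hR, key, sub_self]
    intro i j
    have := hind _ hzero (i, j)
    exact sub_eq_zero.mp this
  -- the unit relation
  have hone : (1 : K) = ∑ k, ((⟨h k 0, hint (h k) (hhH k) 0⟩ : 𝒱) : K) * t k := by
    have := congrFun ht 0
    rw [h0, Finset.sum_apply] at this
    rw [this]
    refine Finset.sum_congr rfl fun k _ => ?_
    rw [Pi.smul_apply, smul_eq_mul, mul_comm]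
  -- the subring `∑ 𝒱 t_k`
  let S : Subalgebra 𝒱 K :=
    { carrier := (Submodule.span 𝒱 (Set.range t) : Set K)
      mul_mem' := by
        intro u u' hu hu'
        have hu1 : u ∈ Submodule.span 𝒱 (Set.range t) := hu
        have hu2 : u' ∈ Submodule.span 𝒱 (Set.range t) := hu'
        show u * u' ∈ Submodule.span 𝒱 (Set.range t)
        refine Submodule.span_induction (p := fun u _ => u * u' ∈ Submodule.span 𝒱 (Set.range t))
          ?_ ?_ ?_ ?_ hu1
        · rintro _ ⟨i, rfl⟩
          refine Submodule.span_induction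
            (p := fun u' _ => t i * u' ∈ Submodule.span 𝒱 (Set.range t)) ?_ ?_ ?_ ?_ hu2
          · rintro _ ⟨j, rfl⟩
            rw [hrel i j]
            refine Submodule.sum_mem _ fun k _ => ?_
            have : ((γ i j k : 𝒱) : K) * t k = (γ i j k) • t k := rfl
            rw [this]
            exact Submodule.smul_mem _ _ (Submodule.subset_span ⟨k, rfl⟩)
          · simp
          · intro v v' _ _ hv hv'
            rw [mul_add]; exact Submodule.add_mem _ hv hv'
          · intro c v _ hv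
            rw [mul_smul_comm]; exact Submodule.smul_mem _ _ hv
        · simp
        · intro v v' _ _ hv hv'
          rw [add_mul]; exact Submodule.add_mem _ hv hv'
        · intro c v _ hv
          rw [smul_mul_assoc]; exact Submodule.smul_mem _ _ hv
      one_mem' := by
        show (1 : K) ∈ Submodule.span 𝒱 (Set.range t)
        rw [hone]
        refine Submodule.sum_mem _ fun k _ => ?_
        exact Submodule.smul_mem _ (⟨h k 0, hint (h k) (hhH k) 0⟩ : 𝒱)
          (Submodule.subset_span ⟨k, rfl⟩)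
      add_mem' := fun hu hu' => Submodule.add_mem _ hu hu'
      zero_mem' := Submodule.zero_mem _
      algebraMap_mem' := by
        intro c
        show algebraMap 𝒱 K c ∈ Submodule.span 𝒱 (Set.range t)
        have h1 : (1 : K) ∈ Submodule.span 𝒱 (Set.range t) := by
          rw [hone]
          refine Submodule.sum_mem _ fun k _ => ?_
          exact Submodule.smul_mem _ (⟨h k 0, hint (h k) (hhH k) 0⟩ : 𝒱)
            (Submodule.subset_span ⟨k, rfl⟩)
        have : algebraMap 𝒱 K c = c • (1 : K) := by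
          rw [Algebra.smul_def, mul_one]
        rw [this]
        exact Submodule.smul_mem _ _ h1 }
  have hSfg : S.toSubmodule.FG := by
    have : S.toSubmodule = Submodule.span 𝒱 (Set.range t) := rfl
    rw [this]
    exact Submodule.fg_span (Set.finite_range t)
  have htint : ∀ k, t k ∈ 𝒱 := by
    intro k
    have hmem : t k ∈ S := Submodule.subset_span ⟨k, rfl⟩
    have hI : IsIntegral 𝒱 (t k) := IsIntegral.of_mem_of_fg S hSfg _ hmem
    obtain ⟨y, hy⟩ := IsIntegrallyClosed.isIntegral_iff.mp hI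
    rw [← hy]
    exact y.2
  rw [ht]
  refine H.sum_mem fun k _ => ?_
  have : t k • h k = (⟨t k, htint k⟩ : 𝒱) • h k := rfl
  rw [this]
  exact H.smul_mem (hhH k) _

/-- the subalgebra of `𝒱`-valued functions -/
def alpuIntFun : Subalgebra 𝒱 (V → K) where
  carrier := {f | ∀ x, f x ∈ 𝒱}
  mul_mem' hf hg x := 𝒱.mul_mem _ _ (hf x) (hg x)
  one_mem' _ := 𝒱.one_mem
  add_mem' hf hg x := 𝒱.add_mem _ _ (hf x) (hg x)
  zero_mem' _ := 𝒱.zero_mem
  algebraMap_mem' c _ := c.2

theorem mem_alpuIntFun (f : V → K) : f ∈ alpuIntFun 𝒱 (V := V) ↔ ∀ x, f x ∈ 𝒱 := Iff.rfl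

/-- a `𝒱`-valued function is integral over `𝒱` -/
theorem alpu_isIntegral (f : V → K) (hf : ∀ x, f x ∈ 𝒱) : IsIntegral 𝒱 f := by
  classical
  refine ⟨∏ x : V, (Polynomial.X - Polynomial.C (⟨f x, hf x⟩ : 𝒱)),
    Polynomial.monic_prod_of_monic _ _ fun x _ => Polynomial.monic_X_sub_C _, ?_⟩
  rw [Polynomial.eval₂_finsetProd]
  funext z
  rw [Finset.prod_apply]
  refine Finset.prod_eq_zero (Finset.mem_univ z) ?_
  rw [Polynomial.eval₂_sub, Polynomial.eval₂_X, Polynomial.eval₂_C, Pi.sub_apply]
  exact sub_self _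

/-- functions on `V × V` of the form `∑ a_t(x) b_t(y)` with `a_t, b_t ∈ H` -/
def AlpuDec (F : V → V → K) : Prop :=
  ∃ (n : ℕ) (a b : Fin n → V → K), (∀ t, a t ∈ H) ∧ (∀ t, b t ∈ H) ∧
    ∀ x y, F x y = ∑ t, a t x * b t y

variable {𝒱 H}

theorem alpuDec_of_fintype {τ : Type} [Fintype τ] (a b : τ → V → K) (ha : ∀ t, a t ∈ H)
    (hb : ∀ t, b t ∈ H) (F : V → V → K) (hF : ∀ x y, F x y = ∑ t, a t x * b t y) :
    AlpuDec 𝒱 H F := by
  refine ⟨Fintype.card τ, fun t => a ((Fintype.equivFin τ).symm t),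
    fun t => b ((Fintype.equivFin τ).symm t), fun t => ha _, fun t => hb _, fun x y => ?_⟩
  rw [hF x y]
  exact (Equiv.sum_comp (Fintype.equivFin τ).symm fun t => a t x * b t y).symm

theorem AlpuDec.add {F G : V → V → K} (hF : AlpuDec 𝒱 H F) (hG : AlpuDec 𝒱 H G) :
    AlpuDec 𝒱 H (fun x y => F x y + G x y) := by
  obtain ⟨n, a, b, ha, hb, hab⟩ := hF
  obtain ⟨n', a', b', ha', hb', hab'⟩ := hG
  refine alpuDec_of_fintype (τ := Fin n ⊕ Fin n') (Sum.elim a a') (Sum.elim b b') ?_ ?_ _ ?_
  · rintro (t | t)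
    · exact ha t
    · exact ha' t
  · rintro (t | t)
    · exact hb t
    · exact hb' t
  · intro x y
    rw [Fintype.sum_sum_type, hab, hab']
    rfl

theorem AlpuDec.mul {F G : V → V → K} (hF : AlpuDec 𝒱 H F) (hG : AlpuDec 𝒱 H G) :
    AlpuDec 𝒱 H (fun x y => F x y * G x y) := by
  obtain ⟨n, a, b, ha, hb, hab⟩ := hF
  obtain ⟨n', a', b', ha', hb', hab'⟩ := hG
  refine alpuDec_of_fintype (τ := Fin n × Fin n') (fun t => a t.1 * a' t.2)
    (fun t => b t.1 * b' t.2) (fun t => H.mul_mem (ha _) (ha' _))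
    (fun t => H.mul_mem (hb _) (hb' _)) _ ?_
  intro x y
  rw [hab, hab', Finset.sum_mul_sum, Fintype.sum_prod_type]
  refine Finset.sum_congr rfl fun s _ => Finset.sum_congr rfl fun t _ => ?_
  simp only [Pi.mul_apply]
  ring

theorem alpuDec_algebraMap (c : 𝒱) :
    AlpuDec 𝒱 H (fun x y => (algebraMap 𝒱 (V → K) c) (x + y)) := by
  refine ⟨1, fun _ => algebraMap 𝒱 (V → K) c, fun _ => 1, fun _ => H.algebraMap_mem c,
    fun _ => H.one_mem, fun x y => ?_⟩
  rw [Fin.sum_univ_one]
  show (c : K) = (c : K) * 1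
  rw [mul_one]

variable (𝒱)

/-- the version for `H = Algebra.adjoin 𝒱 (range m)`, `m` a finite family of `𝒱`-valued functions,
with the comultiplication condition on the generators only -/
theorem alpu_char_mem {ι : Type} [Finite ι] (m : ι → V → K) (hint : ∀ i x, m i x ∈ 𝒱)
    (hsep : ∀ x y : V, x ≠ y → ∃ i, m i x ≠ m i y)
    (hcomul : ∀ i, ∃ (n : ℕ) (a b : Fin n → V → K),
      (∀ t, a t ∈ Algebra.adjoin 𝒱 (Set.range m)) ∧ (∀ t, b t ∈ Algebra.adjoin 𝒱 (Set.range m)) ∧
      ∀ x y, m i (x + y) = ∑ t, a t x * b t y)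
    (χ : V → K) (h0 : χ 0 = 1) (hmul : ∀ x y, χ (x + y) = χ x * χ y) :
    χ ∈ Algebra.adjoin 𝒱 (Set.range m) := by
  have hle : Algebra.adjoin 𝒱 (Set.range m) ≤ alpuIntFun 𝒱 := by
    refine Algebra.adjoin_le ?_
    rintro _ ⟨i, rfl⟩
    exact hint i
  refine alpu_char_mem_subalgebra 𝒱 (Algebra.adjoin 𝒱 (Set.range m)) ?_ (fun f hf => hle hf) ?_ ?_
    χ h0 hmul
  · refine fg_adjoin_of_finite (Set.finite_range m) ?_
    rintro _ ⟨i, rfl⟩
    exact alpu_isIntegral 𝒱 (m i) (hint i)
  · intro x y hxy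
    obtain ⟨i, hi⟩ := hsep x y hxy
    exact ⟨m i, Algebra.subset_adjoin ⟨i, rfl⟩, hi⟩
  · intro f hf
    show AlpuDec 𝒱 (Algebra.adjoin 𝒱 (Set.range m)) (fun x y => f (x + y))
    induction hf using Algebra.adjoin_induction with
    | mem f hf =>
      obtain ⟨i, rfl⟩ := hf
      exact hcomul i
    | algebraMap c => exact alpuDec_algebraMap c
    | add f g _ _ hf hg => exact hf.add hg
    | mul f g _ _ hf hg => exact hf.mul hg

end Char

end Fermat.Agent.Alpha
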