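/-
ALPHA (helper6), package UD, part 2b: **valuation subrings over a prime have rank one on algebraic
elements.**  `A` a valuation subring of a field `L` of characteristic zero with `q ∈ 𝔪_A`.  For `π`
algebraic over `ℤ` with `v(π) < 1` and any algebraic `y`, some `π ^ N * y` lies in `A`.
-/
import Fermat.Agent.Lib.Helper6.FrobeniusExists

set_option autoImplicit false
set_option linter.style.haveILetI false
set_option linter.unusedSectionVars false

open Polynomial

namespace Fermat.Agent.Alpha

open Fermat.Agent.Lib.Helper6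

section RankOne

variable {L : Type*} [Field L] [CharZero L] (A : ValuationSubring L) {q : ℕ}

/-- integers have valuation at most one -/
theorem alpu_valuation_intCast_le (n : ℤ) : A.valuation (n : L) ≤ 1 :=
  (A.valuation_le_one_iff _).mpr (intCast_mem A n)

/-- an integer prime to `q` is a unit -/
theorem alpu_valuation_intCast_eq_one (hq : q.Prime) (hA : (q : L) ∈ A.nonunits) {n : ℤ}
    (hn : ¬ (q : ℤ) ∣ n) : A.valuation (n : L) = 1 := by
  refine le_antisymm (alpu_valuation_intCast_le A n) (not_lt.mp fun hlt => ?_)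
  exact intCast_not_mem_nonunits A hq hA hn ((A.mem_nonunits_iff).mpr hlt)

/-- a power of an algebraic non-unit is divisible by `q` -/
theorem alpu_exists_pow_le_prime (hq : q.Prime) (hA : (q : L) ∈ A.nonunits) {π : L}
    (hπalg : IsAlgebraic ℤ π) (hπ : A.valuation π < 1) :
    ∃ N : ℕ, A.valuation π ^ N ≤ A.valuation (q : L) := by
  classical
  by_cases hπ0 : π = 0
  · exact ⟨1, by rw [hπ0, map_zero, pow_one]; exact zero_le⟩
  have hvπ0 : 0 < A.valuation π := by
    rw [Valuation.pos_iff]; exact hπ0
  obtain ⟨f0, hf0, hf0x⟩ := hπalg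
  set f := f0.primPart with hfdef
  have hprim : f.IsPrimitive := f0.isPrimitive_primPart
  have hfx : aeval π f = 0 := by
    have h := f0.eq_C_content_mul_primPart
    rw [h, map_mul, aeval_C] at hf0x
    have hc : (algebraMap ℤ L) f0.content ≠ 0 := by
      simpa using (content_eq_zero_iff.not.mpr hf0)
    exact (mul_eq_zero.mp hf0x).resolve_left hc
  have hex : ∃ i, ¬ (q : ℤ) ∣ f.coeff i := by
    by_contra hcon
    simp only [not_exists, not_not] at hcon
    have hdvd : C (q : ℤ) ∣ f := (C_dvd_iff_dvd_coeff _ _).mpr hcon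
    have hu := hprim _ hdvd
    have := Int.isUnit_iff.mp hu
    have h2 := hq.two_le
    omega
  set j := Nat.find hex with hjdef
  have hj : ¬ (q : ℤ) ∣ f.coeff j := Nat.find_spec hex
  have hlt : ∀ i, i < j → (q : ℤ) ∣ f.coeff i := by
    intro i hi
    by_contra hnd
    exact Nat.find_min hex hi hnd
  have hjle : j ≤ f.natDegree := by
    by_contra hgt
    rw [not_le] at hgt
    exact hj (by rw [coeff_eq_zero_of_natDegree_lt hgt]; exact dvd_zero _)
  refine ⟨j, ?_⟩
  by_contra hcon
  rw [not_le] at hcon
  -- expand `f(π)`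
  have hsum : aeval π f = ∑ i ∈ Finset.range (f.natDegree + 1), (f.coeff i : L) * π ^ i := by
    rw [aeval_eq_sum_range]
    refine Finset.sum_congr rfl fun i _ => ?_
    rw [zsmul_eq_mul]
  have hjmem : j ∈ Finset.range (f.natDegree + 1) := Finset.mem_range.mpr (by omega)
  rw [← Finset.add_sum_erase _ _ hjmem] at hsum
  have hterm : A.valuation ((f.coeff j : L) * π ^ j) = A.valuation π ^ j := by
    rw [map_mul, map_pow, alpu_valuation_intCast_eq_one A hq hA hj, one_mul]
  have hrest : A.valuation (∑ i ∈ (Finset.range (f.natDegree + 1)).erase j,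
      (f.coeff i : L) * π ^ i) < A.valuation π ^ j := by
    refine Valuation.map_sum_lt _ (pow_ne_zero _ hvπ0.ne') fun i hi => ?_
    have hij : i ≠ j := (Finset.mem_erase.mp hi).1
    rw [map_mul, map_pow]
    rcases lt_or_gt_of_ne hij with h | h
    · obtain ⟨m, hm⟩ := hlt i h
      have h1 : A.valuation (f.coeff i : L) ≤ A.valuation (q : L) := by
        rw [hm]
        push_cast
        rw [map_mul]
        calc A.valuation (q : L) * A.valuation (m : L) ≤ A.valuation (q : L) * 1 := by
              gcongr
              exact alpu_valuation_intCast_le A m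
          _ = A.valuation (q : L) := mul_one _
      have h2 : A.valuation π ^ i ≤ 1 := pow_le_one₀ zero_le hπ.le
      calc A.valuation (f.coeff i : L) * A.valuation π ^ i
          ≤ A.valuation (q : L) * 1 := by gcongr
        _ = A.valuation (q : L) := mul_one _
        _ < A.valuation π ^ j := hcon
    · have h1 : A.valuation π ^ i < A.valuation π ^ j :=
        pow_lt_pow_right_of_lt_one₀ hvπ0 hπ h
      calc A.valuation (f.coeff i : L) * A.valuation π ^ i
          ≤ 1 * A.valuation π ^ i := by
            gcongr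
            exact alpu_valuation_intCast_le A _
        _ = A.valuation π ^ i := one_mul _
        _ < A.valuation π ^ j := h1
  have htot : A.valuation (aeval π f) = A.valuation π ^ j := by
    rw [hsum, Valuation.map_add_eq_of_lt_left _ (by rw [hterm]; exact hrest), hterm]
  rw [hfx, map_zero] at htot
  exact (pow_ne_zero _ hvπ0.ne') htot.symm

/-- a power of an algebraic non-unit is divisible by any given nonzero integer -/
theorem alpu_exists_pow_le_int (hq : q.Prime) (hA : (q : L) ∈ A.nonunits) {π : L}
    (hπalg : IsAlgebraic ℤ π) (hπ : A.valuation π < 1) {n : ℤ} (hn : n ≠ 0) :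
    ∃ N : ℕ, A.valuation π ^ N ≤ A.valuation (n : L) := by
  obtain ⟨N0, hN0⟩ := alpu_exists_pow_le_prime A hq hA hπalg hπ
  obtain ⟨e, n', hn', hen⟩ := Nat.exists_eq_pow_mul_and_not_dvd (Int.natAbs_ne_zero.mpr hn) q
    hq.ne_one
  have hv : A.valuation (n : L) = A.valuation (q : L) ^ e := by
    have h1 : A.valuation (n : L) = A.valuation ((n.natAbs : ℤ) : L) := by
      rcases Int.natAbs_eq n with h | h
      · rw [← h]
      · conv_lhs => rw [h]
        push_cast
        rw [Valuation.map_neg]
    rw [h1, hen]
    push_cast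
    rw [map_mul, map_pow]
    have h2 : A.valuation ((n' : ℤ) : L) = 1 :=
      alpu_valuation_intCast_eq_one A hq hA (by exact_mod_cast hn')
    have h3 : ((n' : ℤ) : L) = (n' : L) := by push_cast; rfl
    rw [← h3, h2, mul_one]
  refine ⟨N0 * e, ?_⟩
  rw [hv, pow_mul]
  exact pow_le_pow_left₀ zero_le hN0 e

/-- **rank one.** -/
theorem alpu_exists_pow_mul_mem (hq : q.Prime) (hA : (q : L) ∈ A.nonunits) {π : L}
    (hπalg : IsAlgebraic ℤ π) (hπ : A.valuation π < 1) {y : L} (hyalg : IsAlgebraic ℤ y) :
    ∃ N : ℕ, π ^ N * y ∈ A := by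
  obtain ⟨n, hn, hint⟩ := hyalg.exists_integral_multiple
  have hmem : n • y ∈ A := integralClosure_le_valuationSubring L A hint
  rw [zsmul_eq_mul, ← A.valuation_le_one_iff, map_mul] at hmem
  obtain ⟨N, hN⟩ := alpu_exists_pow_le_int A hq hA hπalg hπ hn
  refine ⟨N, ?_⟩
  rw [← A.valuation_le_one_iff, map_mul, map_pow]
  calc A.valuation π ^ N * A.valuation y ≤ A.valuation (n : L) * A.valuation y := by gcongr
    _ ≤ 1 := hmem

end RankOne

end Fermat.Agent.Alpha
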