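/-
ALPHA (helper6), package UD, part 2a: **separating algebraic integers.**
`A` a valuation subring of `ℚ̄` over the prime `q`, `Q` the prime of the ring `ℤ̄` of all algebraic
integers below `A`, `H` a closed subgroup of `G_ℚ`.

* `alpu_exists_smul_eq` : `H` acts transitively on the primes of `ℤ̄` with a given contraction to
  the `H`-invariants (Mathlib's profinite invariant theory);
* `alpu_exists_sep` : if `H` contains the inertia group of `A` and `γ ∉ H`, there is an `H`-invariant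
  algebraic integer `η` with `γ η - η` a unit of `A`;
* `alpu_exists_far` : if `γ ∉ D · H` (`D` the decomposition group of `A`), there is an `H`-invariant
  algebraic integer `η` which is a unit of `A` with `γ η` in the maximal ideal of `A`.
-/
import Fermat.Agent.Lib.CFT.Bridge.UnramifiedLevel

set_option autoImplicit false
set_option linter.style.haveILetI false
set_option linter.unusedSectionVars false

open scoped Pointwise

namespace Fermat.Agent.Alpha

open Fermat.Agent.CFT Fermat.Agent.CFT.Bridge Fermat.Agent.Lib.Helper6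

section Sep

variable (H : Subgroup GQ)

/-- a closed subgroup `H` acts transitively on the primes of `ℤ̄` with the same `H`-invariant
elements -/
theorem alpu_exists_smul_eq (hH : IsClosed (H : Set GQ))
    (P Q : Ideal ↥(integralClosure ℤ Qbar)) [P.IsPrime] [Q.IsPrime]
    (h : ∀ b : ↥(integralClosure ℤ Qbar), (∀ s ∈ H, s • b = b) → (b ∈ P ↔ b ∈ Q)) :
    ∃ ρ ∈ H, Q = ρ • P := by
  classical
  letI : TopologicalSpace ↥(integralClosure ℤ Qbar) := ⊥
  haveI : DiscreteTopology ↥(integralClosure ℤ Qbar) := ⟨rfl⟩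
  haveI := continuousSMul_GQ_Zbar
  haveI : CompactSpace H := compactSpace_of_isClosed _ hH
  haveI : SMulCommClass ↥H ↥(FixedPoints.subalgebra ℤ ↥(integralClosure ℤ Qbar) ↥H)
      ↥(integralClosure ℤ Qbar) :=
    instSMulCommClassSubtypeMemSubalgebraSubalgebra ℤ ↥(integralClosure ℤ Qbar) ↥H
  have hunder : P.under (FixedPoints.subalgebra ℤ ↥(integralClosure ℤ Qbar) H) =
      Q.under (FixedPoints.subalgebra ℤ ↥(integralClosure ℤ Qbar) H) := by
    ext a
    rw [Ideal.under_def, Ideal.mem_comap, Ideal.mem_comap]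
    exact h a.1 (fun s hs => a.2 ⟨s, hs⟩)
  obtain ⟨ρ, hρ⟩ := Algebra.IsInvariant.exists_smul_of_under_eq_of_profinite
    (A := FixedPoints.subalgebra ℤ ↥(integralClosure ℤ Qbar) H)
    (B := ↥(integralClosure ℤ Qbar)) (G := H) P Q hunder
  exact ⟨ρ.1, ρ.2, hρ⟩

variable {A : ValuationSubring Qbar} {q : ℕ}

/-- lifting residue automorphisms which are linear over the `H`-invariants into `H` -/
theorem alpu_exists_mem_stab (hH : IsClosed (H : Set GQ)) (d : GQ)
    (hd : d • primeZbar A = primeZbar A)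
    (hd' : ∀ b : ↥(integralClosure ℤ Qbar), (∀ s ∈ H, s • b = b) → d • b - b ∈ primeZbar A) :
    ∃ s ∈ H, s • primeZbar A = primeZbar A ∧
      ∀ b : ↥(integralClosure ℤ Qbar), d • b - s • b ∈ primeZbar A := by
  classical
  letI : TopologicalSpace ↥(integralClosure ℤ Qbar) := ⊥
  haveI : DiscreteTopology ↥(integralClosure ℤ Qbar) := ⟨rfl⟩
  haveI := continuousSMul_GQ_Zbar
  haveI : CompactSpace H := compactSpace_of_isClosed _ hH
  haveI : SMulCommClass ↥H ↥(FixedPoints.subalgebra ℤ ↥(integralClosure ℤ Qbar) ↥H)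
      ↥(integralClosure ℤ Qbar) :=
    instSMulCommClassSubtypeMemSubalgebraSubalgebra ℤ ↥(integralClosure ℤ Qbar) ↥H
  let e0 := Ideal.Quotient.stabilizerHom (primeZbar A) ((primeZbar A).under ℤ) GQ ⟨d, hd⟩
  let e : (↥(integralClosure ℤ Qbar) ⧸ primeZbar A) ≃ₐ[
      FixedPoints.subalgebra ℤ ↥(integralClosure ℤ Qbar) H ⧸
        (primeZbar A).under (FixedPoints.subalgebra ℤ ↥(integralClosure ℤ Qbar) H)]
      (↥(integralClosure ℤ Qbar) ⧸ primeZbar A) :=
    AlgEquiv.ofRingEquiv (f := e0.toRingEquiv) (by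
      intro r
      obtain ⟨a, rfl⟩ := Ideal.Quotient.mk_surjective r
      rw [Ideal.Quotient.algebraMap_mk_of_liesOver]
      change e0 (Ideal.Quotient.mk _ _) = _
      rw [Ideal.Quotient.stabilizerHom_apply, Ideal.Quotient.eq]
      exact hd' a.1 (fun s hs => a.2 ⟨s, hs⟩))
  obtain ⟨⟨ρ', hρ'⟩, he⟩ := Ideal.Quotient.stabilizerHom_surjective_of_profinite
    (G := H)
    ((primeZbar A).under (FixedPoints.subalgebra ℤ ↥(integralClosure ℤ Qbar) H))
    (primeZbar A) e
  have hρ'Q : (ρ' : GQ) • primeZbar A = primeZbar A := hρ'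
  refine ⟨ρ'.1, ρ'.2, hρ'Q, fun b => ?_⟩
  have h4 := congrArg (fun f => f (Ideal.Quotient.mk (primeZbar A) b)) he
  simp only [Ideal.Quotient.stabilizerHom_apply] at h4
  have h5 : e (Ideal.Quotient.mk (primeZbar A) b) =
      Ideal.Quotient.mk (primeZbar A) (d • b) := rfl
  rw [h5] at h4
  exact Ideal.Quotient.eq.mp h4.symm

/-- **separation.**  If the closed subgroup `H` contains the inertia group of `A` and `γ ∉ H`, some
`H`-invariant algebraic integer `η` has `γ η - η` a unit of `A`. -/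
theorem alpu_exists_sep (hq : q.Prime) (hA : A.LiesOverPrime q) (hH : IsClosed (H : Set GQ))
    (hIH : A.inertiaSubgroupIn ℚ ≤ H) (γ : GQ) (hγ : γ ∉ H) :
    ∃ η : Qbar, IsIntegral ℤ η ∧ (∀ s ∈ H, s η = η) ∧ ¬ A.valuation (γ η - η) < 1 := by
  by_contra hcon
  push Not at hcon
  -- elements of the fixed ring
  have hfix : ∀ b : ↥(integralClosure ℤ Qbar), (∀ s ∈ H, s • b = b) →
      A.valuation (γ (b : Qbar) - (b : Qbar)) < 1 := by
    intro b hb
    refine hcon (b : Qbar) b.2 fun s hs => ?_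
    have := congrArg Subtype.val (hb s hs)
    simpa using this
  -- step 1: the contractions of `γ⁻¹ • Q` and `Q` agree
  have h1 : ∀ b : ↥(integralClosure ℤ Qbar), (∀ s ∈ H, s • b = b) →
      (b ∈ γ⁻¹ • primeZbar A ↔ b ∈ primeZbar A) := by
    intro b hb
    rw [Ideal.mem_pointwise_smul_iff_inv_smul_mem, inv_inv, mem_primeZbar_iff, mem_primeZbar_iff]
    exact (valuation_lt_one_iff_of_sub A (hfix b hb)).symm
  obtain ⟨ρ, hρH, hρ⟩ := alpu_exists_smul_eq H hH (γ⁻¹ • primeZbar A) (primeZbar A) h1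
  -- `d = γ ρ⁻¹` stabilises `Q`
  have hdQ : (γ * ρ⁻¹) • primeZbar A = primeZbar A := by
    conv_lhs => rw [hρ]
    rw [← mul_smul, ← mul_smul]
    have : γ * ρ⁻¹ * ρ * γ⁻¹ = 1 := by group
    rw [this, one_smul]
  have hd' : ∀ b : ↥(integralClosure ℤ Qbar), (∀ s ∈ H, s • b = b) →
      (γ * ρ⁻¹) • b - b ∈ primeZbar A := by
    intro b hb
    rw [mul_smul, hb ρ⁻¹ (inv_mem hρH), mem_primeZbar_iff]
    exact hfix b hb
  obtain ⟨s, hsH, hsQ, hs⟩ := alpu_exists_mem_stab H hH (γ * ρ⁻¹) hdQ hd'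
  have hsinvQ : s⁻¹ • primeZbar A = primeZbar A := by
    conv_lhs => rw [← hsQ]
    rw [inv_smul_smul]
  -- `τ = s⁻¹ d` is in the inertia group
  have hτ : s⁻¹ * (γ * ρ⁻¹) ∈ A.inertiaSubgroupIn ℚ := by
    apply mem_inertiaSubgroupIn_of_smul_primeZbar hq hA
    · rw [mul_smul, hdQ, hsinvQ]
    · intro b hb
      have h6 := hs ⟨b, hb⟩
      rw [← Ideal.smul_mem_pointwise_smul_iff (a := s⁻¹), hsinvQ, mem_primeZbar_iff] at h6
      convert h6 using 2
      simp only [smul_sub, inv_smul_smul]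
      rfl
  have h7 : s⁻¹ * (γ * ρ⁻¹) ∈ H := hIH hτ
  have h8 : γ = s * (s⁻¹ * (γ * ρ⁻¹)) * ρ := by group
  rw [h8] at hγ
  exact hγ (H.mul_mem (H.mul_mem hsH h7) hρH)

/-- the `H`-invariant algebraic integers, as a `ℤ`-algebra, are integral over `ℤ` -/
theorem alpu_fixed_isIntegral :
    Algebra.IsIntegral ℤ ↥(FixedPoints.subalgebra ℤ ↥(integralClosure ℤ Qbar) H) := by
  constructor
  intro a
  have h1 : IsIntegral ℤ (a : ↥(integralClosure ℤ Qbar)) := Algebra.IsIntegral.isIntegral _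
  exact (isIntegral_algebraMap_iff
    (A := ↥(FixedPoints.subalgebra ℤ ↥(integralClosure ℤ Qbar) H))
    (B := ↥(integralClosure ℤ Qbar)) Subtype.val_injective).mp h1

/-- **far points.**  If `γ ∉ D · H`, some `H`-invariant algebraic integer is a unit of `A` and is
sent into the maximal ideal of `A` by `γ`. -/
theorem alpu_exists_far (hq : q.Prime) (hA : A.LiesOverPrime q) (hH : IsClosed (H : Set GQ))
    (γ : GQ) (hγ : ∀ d ∈ A.decompositionSubgroup ℚ, d⁻¹ * γ ∉ H) :
    ∃ η : Qbar, IsIntegral ℤ η ∧ (∀ s ∈ H, s η = η) ∧ ¬ A.valuation η < 1 ∧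
      A.valuation (γ η) < 1 := by
  by_contra hcon
  push Not at hcon
  haveI := alpu_fixed_isIntegral H
  -- the two contractions
  set PH := (γ⁻¹ • primeZbar A).under (FixedPoints.subalgebra ℤ ↥(integralClosure ℤ Qbar) H)
    with hPH
  set QH := (primeZbar A).under (FixedPoints.subalgebra ℤ ↥(integralClosure ℤ Qbar) H) with hQH
  have hle : PH ≤ QH := by
    intro a ha
    rw [hPH, Ideal.under_def, Ideal.mem_comap, Ideal.mem_pointwise_smul_iff_inv_smul_mem, inv_inv,
      mem_primeZbar_iff] at ha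
    rw [hQH, Ideal.under_def, Ideal.mem_comap, mem_primeZbar_iff]
    by_contra hlt
    refine absurd ha (not_lt.mpr (hcon _ a.1.2 (fun s hs => ?_) (not_lt.mp hlt)))
    have := congrArg Subtype.val (a.2 ⟨s, hs⟩)
    simpa using this
  -- `PH` is maximal
  have hqmem : ((q : ℤ) : ↥(FixedPoints.subalgebra ℤ ↥(integralClosure ℤ Qbar) H)) ∈ PH := by
    rw [hPH, Ideal.under_def, Ideal.mem_comap, Ideal.mem_pointwise_smul_iff_inv_smul_mem, inv_inv,
      mem_primeZbar_iff]
    have h : ((q : ℕ) : Qbar) ∈ A.nonunits := hA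
    rw [A.mem_nonunits_iff] at h
    simpa using h
  have hmax : PH.IsMaximal := by
    apply Ideal.isMaximal_of_isIntegral_of_isMaximal_comap (R := ℤ)
    have hne : PH.comap (algebraMap ℤ _) ≠ ⊥ := by
      intro hbot
      have : (q : ℤ) ∈ PH.comap (algebraMap ℤ
          ↥(FixedPoints.subalgebra ℤ ↥(integralClosure ℤ Qbar) H)) := by
        rw [Ideal.mem_comap]
        simpa using hqmem
      rw [hbot, Ideal.mem_bot] at this
      exact hq.ne_zero (by exact_mod_cast this)
    exact IsPrime.to_maximal_ideal hne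
  have heq : PH = QH := hmax.eq_of_le (Ideal.IsPrime.ne_top inferInstance) hle
  have h1 : ∀ b : ↥(integralClosure ℤ Qbar), (∀ s ∈ H, s • b = b) →
      (b ∈ γ⁻¹ • primeZbar A ↔ b ∈ primeZbar A) := by
    intro b hb
    have := Ideal.ext_iff.mp heq
      (⟨b, fun s => hb s.1 s.2⟩ : ↥(FixedPoints.subalgebra ℤ ↥(integralClosure ℤ Qbar) H))
    rw [hPH, hQH, Ideal.under_def, Ideal.under_def, Ideal.mem_comap, Ideal.mem_comap] at this
    exact this
  obtain ⟨ρ, hρH, hρ⟩ := alpu_exists_smul_eq H hH (γ⁻¹ • primeZbar A) (primeZbar A) h1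
  have hdQ : (γ * ρ⁻¹) • primeZbar A = primeZbar A := by
    conv_lhs => rw [hρ]
    rw [← mul_smul, ← mul_smul]
    have : γ * ρ⁻¹ * ρ * γ⁻¹ = 1 := by group
    rw [this, one_smul]
  have hdD := mem_decompositionSubgroup_of_smul_primeZbar hq hA _ hdQ
  refine hγ _ hdD ?_
  have : (γ * ρ⁻¹)⁻¹ * γ = ρ := by group
  rw [this]
  exact hρH

end Sep

end Fermat.Agent.Alpha
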