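/-
ALPHA (helper6), package UD, part 2c: **the indicator of an inertia-fixed point of a finite
transitive `G_ℚ`-set is an `A`-linear combination of equivariant integral functions.**

`A` a valuation subring of `ℚ̄` over `q`, `Ω` a finite transitive `G_ℚ`-set, `ω₀ ∈ Ω` with closed
stabiliser containing the inertia group of `A`, `y i : Ω → ℚ̄` finitely many "denominator" functions
with `y i (d • ω₀) ∈ A` for `d` in the decomposition group.  Then the indicator function of `ω₀` lies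
in the `A`-span of the `G_ℚ`-equivariant functions `F : Ω → A` with all `F * y i` still `A`-valued
(`alpu_indicator_mem`).
-/
import Fermat.Agent.Lib.Alpha.Unram.Sep
import Fermat.Agent.Lib.Alpha.Unram.RankOne

set_option autoImplicit false
set_option linter.style.haveILetI false
set_option linter.unusedSectionVars false

open scoped Pointwise

namespace Fermat.Agent.Alpha

open Fermat.Agent.CFT Fermat.Agent.CFT.Bridge Fermat.Agent.Lib.Helper6

section Ext

variable {Ω : Type} [MulAction GQ Ω]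

/-- equivariant functions with algebraic integer values -/
def AlpuEqInt (E : Ω → Qbar) : Prop :=
  (∀ (γ : GQ) (ω : Ω), E (γ • ω) = γ (E ω)) ∧ ∀ ω, IsIntegral ℤ (E ω)

theorem AlpuEqInt.const_intCast (n : ℤ) : AlpuEqInt (fun _ : Ω => (n : Qbar)) :=
  ⟨fun γ _ => (map_intCast γ n).symm, fun _ => isIntegral_algebraMap (R := ℤ) (x := n)⟩

theorem AlpuEqInt.one : AlpuEqInt (fun _ : Ω => (1 : Qbar)) :=
  ⟨fun γ _ => (map_one γ).symm, fun _ => isIntegral_one⟩

theorem AlpuEqInt.zero : AlpuEqInt (fun _ : Ω => (0 : Qbar)) :=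
  ⟨fun γ _ => (map_zero γ).symm, fun _ => isIntegral_zero⟩

theorem AlpuEqInt.mul {E F : Ω → Qbar} (hE : AlpuEqInt E) (hF : AlpuEqInt F) :
    AlpuEqInt (fun ω => E ω * F ω) :=
  ⟨fun γ ω => by
    show E (γ • ω) * F (γ • ω) = γ (E ω * F ω)
    rw [hE.1, hF.1, map_mul], fun ω => (hE.2 ω).mul (hF.2 ω)⟩

theorem AlpuEqInt.pow {E : Ω → Qbar} (hE : AlpuEqInt E) (n : ℕ) :
    AlpuEqInt (fun ω => E ω ^ n) :=
  ⟨fun γ ω => by
    show E (γ • ω) ^ n = γ (E ω ^ n)
    rw [hE.1, map_pow], fun ω => (hE.2 ω).pow n⟩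

theorem AlpuEqInt.prod {κ : Type} (s : Finset κ) {E : κ → Ω → Qbar}
    (hE : ∀ k ∈ s, AlpuEqInt (E k)) : AlpuEqInt (fun ω => ∏ k ∈ s, E k ω) :=
  ⟨fun γ ω => by
    show ∏ k ∈ s, E k (γ • ω) = γ (∏ k ∈ s, E k ω)
    rw [map_prod]
    exact Finset.prod_congr rfl fun k hk => (hE k hk).1 γ ω,
   fun ω => IsIntegral.prod (fun k => E k ω) fun k hk => (hE k hk).2 ω⟩

variable (ω₀ : Ω)

/-- the equivariant extension to the orbit of `ω₀` of an element fixed by the stabiliser of `ω₀` -/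
noncomputable def alpuExt (η : Qbar) (ω : Ω) : Qbar := by
  classical
  exact if h : ∃ γ : GQ, γ • ω₀ = ω then (Classical.choose h) η else 0

theorem alpuExt_smul (η : Qbar) (hη : ∀ s ∈ MulAction.stabilizer GQ ω₀, s η = η) (γ : GQ) :
    alpuExt ω₀ η (γ • ω₀) = γ η := by
  have h : ∃ γ' : GQ, γ' • ω₀ = γ • ω₀ := ⟨γ, rfl⟩
  unfold alpuExt
  rw [dif_pos h]
  have h1 := Classical.choose_spec h
  have h2 : γ⁻¹ * Classical.choose h ∈ MulAction.stabilizer GQ ω₀ := by
    rw [MulAction.mem_stabilizer_iff, mul_smul, h1, inv_smul_smul]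
  have h3 := hη _ h2
  have h4 : (Classical.choose h) η = γ ((γ⁻¹ * Classical.choose h) η) := by
    change _ = (γ * (γ⁻¹ * Classical.choose h)) η
    rw [mul_inv_cancel_left]
  rw [h4, h3]

theorem alpuExt_self (η : Qbar) (hη : ∀ s ∈ MulAction.stabilizer GQ ω₀, s η = η) :
    alpuExt ω₀ η ω₀ = η := by
  have := alpuExt_smul ω₀ η hη 1
  rwa [one_smul] at this

theorem alpuEqInt_ext [MulAction.IsPretransitive GQ Ω] (η : Qbar) (hint : IsIntegral ℤ η)
    (hη : ∀ s ∈ MulAction.stabilizer GQ ω₀, s η = η) : AlpuEqInt (alpuExt ω₀ η) := by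
  constructor
  · intro γ ω
    obtain ⟨γ', rfl⟩ := MulAction.exists_smul_eq GQ ω₀ ω
    rw [← mul_smul, alpuExt_smul ω₀ η hη, alpuExt_smul ω₀ η hη]
    rfl
  · intro ω
    obtain ⟨γ', rfl⟩ := MulAction.exists_smul_eq GQ ω₀ ω
    rw [alpuExt_smul ω₀ η hη]
    exact map_isIntegral_int γ' hint

end Ext

section Indicator

variable {A : ValuationSubring Qbar} {q : ℕ}
variable {Ω : Type} [Fintype Ω] [DecidableEq Ω] [MulAction GQ Ω] [MulAction.IsPretransitive GQ Ω]

/-- equivariant `A`-valued functions whose products with the `y i` are `A`-valued -/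
def alpuGood (A : ValuationSubring Qbar) {ι : Type} (y : ι → Ω → Qbar) : Set (Ω → Qbar) :=
  {F | (∀ (γ : GQ) (ω : Ω), F (γ • ω) = γ (F ω)) ∧ (∀ ω, F ω ∈ A) ∧ ∀ i ω, F ω * y i ω ∈ A}

theorem alpu_valuation_eq_one_of_isIntegral {x : Qbar} (hx : IsIntegral ℤ x)
    (h : ¬ A.valuation x < 1) : A.valuation x = 1 :=
  le_antisymm ((A.valuation_le_one_iff _).mpr (integralClosure_le_valuationSubring Qbar A hx))
    (not_lt.mp h)

theorem alpu_isAlgebraic_int (x : Qbar) : IsAlgebraic ℤ x :=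
  (IsFractionRing.isAlgebraic_iff ℤ ℚ Qbar).mpr (Algebra.IsAlgebraic.isAlgebraic x)

/-- multiplying the span of the good functions by an equivariant integral function -/
theorem alpu_mul_mem_span {ι : Type} (y : ι → Ω → Qbar) {E : Ω → Qbar} (hE : AlpuEqInt E)
    {f : Ω → Qbar} (hf : f ∈ Submodule.span A (alpuGood A y)) :
    E * f ∈ Submodule.span A (alpuGood A y) := by
  induction hf using Submodule.span_induction with
  | mem F hF =>
    refine Submodule.subset_span ⟨fun γ ω => ?_, fun ω => ?_, fun i ω => ?_⟩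
    · rw [Pi.mul_apply, Pi.mul_apply, hE.1, hF.1, map_mul]
    · exact A.mul_mem _ _ (integralClosure_le_valuationSubring Qbar A (hE.2 ω)) (hF.2.1 ω)
    · rw [Pi.mul_apply, mul_assoc]
      exact A.mul_mem _ _ (integralClosure_le_valuationSubring Qbar A (hE.2 ω)) (hF.2.2 i ω)
  | zero => rw [mul_zero]; exact Submodule.zero_mem _
  | add f g _ _ hf hg => rw [mul_add]; exact Submodule.add_mem _ hf hg
  | smul a f _ hf => rw [mul_smul_comm]; exact Submodule.smul_mem _ _ hf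

/-- **the indicator of an inertia-fixed point** -/
theorem alpu_indicator_mem (hq : q.Prime) (hA : A.LiesOverPrime q) (ω₀ : Ω)
    (hcl : IsClosed (MulAction.stabilizer GQ ω₀ : Set GQ))
    (hI : A.inertiaSubgroupIn ℚ ≤ MulAction.stabilizer GQ ω₀)
    {ι : Type} [Finite ι] (y : ι → Ω → Qbar)
    (hy : ∀ i, ∀ d ∈ A.decompositionSubgroup ℚ, y i (d • ω₀) ∈ A) :
    (Pi.single ω₀ (1 : Qbar) : Ω → Qbar) ∈ Submodule.span A (alpuGood A y) := by
  classical
  cases nonempty_fintype ι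
  -- (1) separating functions
  have hE' : ∀ ω : Ω, ∃ E : Ω → Qbar, AlpuEqInt E ∧
      (ω ≠ ω₀ → ¬ A.valuation (E ω - E ω₀) < 1) := by
    intro ω
    by_cases hω : ω = ω₀
    · exact ⟨_, AlpuEqInt.zero, fun h => absurd hω h⟩
    obtain ⟨γ, rfl⟩ := MulAction.exists_smul_eq GQ ω₀ ω
    have hγ : γ ∉ MulAction.stabilizer GQ ω₀ := fun h => hω (MulAction.mem_stabilizer_iff.mp h)
    obtain ⟨η, hηint, hηfix, hη⟩ := alpu_exists_sep _ hq hA hcl hI γ hγ
    refine ⟨alpuExt ω₀ η, alpuEqInt_ext ω₀ η hηint hηfix, fun _ => ?_⟩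
    rw [alpuExt_smul ω₀ η hηfix, alpuExt_self ω₀ η hηfix]
    exact hη
  choose E hE hEsep using hE'
  -- (2) functions vanishing at the far points
  have hC' : ∀ ω : Ω, ∃ C : Ω → Qbar, AlpuEqInt C ∧ ¬ A.valuation (C ω₀) < 1 ∧
      ((∀ d ∈ A.decompositionSubgroup ℚ, d • ω₀ ≠ ω) → A.valuation (C ω) < 1) := by
    intro ω
    by_cases hω : ∀ d ∈ A.decompositionSubgroup ℚ, d • ω₀ ≠ ω
    · obtain ⟨γ, rfl⟩ := MulAction.exists_smul_eq GQ ω₀ ω
      have hγ : ∀ d ∈ A.decompositionSubgroup ℚ, d⁻¹ * γ ∉ MulAction.stabilizer GQ ω₀ := by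
        intro d hd hmem
        rw [MulAction.mem_stabilizer_iff, mul_smul, inv_smul_eq_iff] at hmem
        exact hω d hd hmem.symm
      obtain ⟨η, hηint, hηfix, hη1, hη2⟩ := alpu_exists_far _ hq hA hcl γ hγ
      refine ⟨alpuExt ω₀ η, alpuEqInt_ext ω₀ η hηint hηfix, ?_, fun _ => ?_⟩
      · rw [alpuExt_self ω₀ η hηfix]; exact hη1
      · rw [alpuExt_smul ω₀ η hηfix]; exact hη2
    · refine ⟨_, AlpuEqInt.one, ?_, fun h => absurd h hω⟩
      rw [map_one]; exact lt_irrefl _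
  choose C hC hC0 hCfar using hC'
  -- (3) the corrector
  have hN' : ∀ (ω : Ω) (i : ι), ∃ N : ℕ,
      (∀ d ∈ A.decompositionSubgroup ℚ, d • ω₀ ≠ ω) → C ω ω ^ N * y i ω ∈ A := by
    intro ω i
    by_cases hω : ∀ d ∈ A.decompositionSubgroup ℚ, d • ω₀ ≠ ω
    · obtain ⟨N, hN⟩ := alpu_exists_pow_mul_mem A hq hA ((hC ω).2 ω).isAlgebraic (hCfar ω hω)
        (alpu_isAlgebraic_int (y i ω))
      exact ⟨N, fun _ => hN⟩
    · exact ⟨0, fun h => absurd h hω⟩
  choose N hN using hN'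
  set Nt : ℕ := ∑ ω, ∑ i, N ω i with hNt
  have hNle : ∀ ω i, N ω i ≤ Nt := by
    intro ω i
    calc N ω i ≤ ∑ i, N ω i := Finset.single_le_sum (f := fun i => N ω i)
          (fun _ _ => Nat.zero_le _) (Finset.mem_univ i)
      _ ≤ Nt := Finset.single_le_sum (f := fun ω => ∑ i, N ω i)
          (fun _ _ => Nat.zero_le _) (Finset.mem_univ ω)
  set c : Ω → Qbar := fun ω' => ∏ ω, C ω ω' ^ Nt with hc
  have hcEq : AlpuEqInt c := AlpuEqInt.prod _ fun ω _ => (hC ω).pow Nt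
  have hmemA : ∀ {x : Qbar}, IsIntegral ℤ x → x ∈ A :=
    fun hx => integralClosure_le_valuationSubring Qbar A hx
  have hc0 : A.valuation (c ω₀) = 1 := by
    rw [hc, map_prod]
    refine Finset.prod_eq_one fun ω _ => ?_
    rw [map_pow, alpu_valuation_eq_one_of_isIntegral ((hC ω).2 ω₀) (hC0 ω), one_pow]
  have hcgood : c ∈ alpuGood A y := by
    refine ⟨hcEq.1, fun ω => hmemA (hcEq.2 ω), fun i ω' => ?_⟩
    by_cases hω : ∀ d ∈ A.decompositionSubgroup ℚ, d • ω₀ ≠ ω'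
    · have h1 : c ω' = (∏ ω ∈ Finset.univ.erase ω', C ω ω' ^ Nt) * C ω' ω' ^ (Nt - N ω' i) *
          C ω' ω' ^ N ω' i := by
        rw [hc, mul_assoc, ← pow_add, Nat.sub_add_cancel (hNle ω' i), mul_comm]
        exact (Finset.mul_prod_erase _ _ (Finset.mem_univ ω')).symm
      rw [h1, mul_assoc]
      refine A.mul_mem _ _ (A.mul_mem _ _ ?_ ?_) (hN ω' i hω)
      · exact hmemA (IsIntegral.prod (fun ω => C ω ω' ^ Nt) fun ω _ => ((hC ω).2 ω').pow Nt)
      · exact hmemA (((hC ω').2 ω').pow _)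
    · push Not at hω
      obtain ⟨d, hd, rfl⟩ := hω
      exact A.mul_mem _ _ (hmemA (hcEq.2 _)) (hy i d hd)
  -- (4) the interpolation factors
  have hg : ∀ ω, ω ≠ ω₀ → ∀ f ∈ Submodule.span A (alpuGood A y),
      (fun ω' => (E ω ω₀ - E ω ω)⁻¹ * (E ω ω' - E ω ω)) * f ∈
        Submodule.span A (alpuGood A y) := by
    intro ω hω f hf
    have hv : A.valuation (E ω ω₀ - E ω ω) = 1 := by
      have h1 : ¬ A.valuation (E ω ω₀ - E ω ω) < 1 := by
        rw [← Valuation.map_neg, neg_sub]; exact hEsep ω hω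
      exact alpu_valuation_eq_one_of_isIntegral (((hE ω).2 ω₀).sub ((hE ω).2 ω)) h1
    have hu : (E ω ω₀ - E ω ω)⁻¹ ∈ A := by
      rw [← A.valuation_le_one_iff, map_inv₀, hv, inv_one]
    have ht : E ω ω ∈ A := hmemA ((hE ω).2 ω)
    have h1 : (fun ω' => (E ω ω₀ - E ω ω)⁻¹ * (E ω ω' - E ω ω)) * f =
        (⟨_, hu⟩ : A) • (E ω * f - (⟨_, ht⟩ : A) • f) := by
      funext ω'
      simp only [Pi.mul_apply, Pi.smul_apply, Pi.sub_apply]
      change _ = (E ω ω₀ - E ω ω)⁻¹ * (E ω ω' * f ω' - E ω ω * f ω')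
      ring
    rw [h1]
    exact Submodule.smul_mem _ _ (Submodule.sub_mem _ (alpu_mul_mem_span y (hE ω) hf)
      (Submodule.smul_mem _ _ hf))
  -- (5) the product
  have hprod : ∀ s : Finset Ω, ω₀ ∉ s →
      (∏ ω ∈ s, fun ω' => (E ω ω₀ - E ω ω)⁻¹ * (E ω ω' - E ω ω)) * c ∈
        Submodule.span A (alpuGood A y) := by
    intro s
    induction s using Finset.induction_on with
    | empty => intro _; rw [Finset.prod_empty, one_mul]; exact Submodule.subset_span hcgood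
    | insert ω s hωs ih =>
      intro h0
      rw [Finset.prod_insert hωs, mul_assoc]
      have hω : ω ≠ ω₀ := fun h => h0 (h ▸ Finset.mem_insert_self _ _)
      exact hg ω hω _ (ih fun h => h0 (Finset.mem_insert_of_mem h))
  have hfinal := hprod (Finset.univ.erase ω₀) (Finset.notMem_erase _ _)
  have hcu : (c ω₀)⁻¹ ∈ A := by
    rw [← A.valuation_le_one_iff, map_inv₀, hc0, inv_one]
  have heq : (Pi.single ω₀ (1 : Qbar) : Ω → Qbar) = (⟨_, hcu⟩ : A) •
      ((∏ ω ∈ Finset.univ.erase ω₀, fun ω' => (E ω ω₀ - E ω ω)⁻¹ * (E ω ω' - E ω ω)) * c) := by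
    have hc0ne : c ω₀ ≠ 0 := by
      intro h
      rw [h, map_zero] at hc0
      exact zero_ne_one hc0
    funext ω'
    rw [Pi.smul_apply, Pi.mul_apply, Finset.prod_apply]
    change _ = (c ω₀)⁻¹ * _
    by_cases hω' : ω' = ω₀
    · subst hω'
      rw [Pi.single_eq_same, Finset.prod_eq_one, one_mul, inv_mul_cancel₀ hc0ne]
      intro ω hω
      have hω : ω ≠ ω' := (Finset.mem_erase.mp hω).1
      have hv : A.valuation (E ω ω' - E ω ω) = 1 := by
        have h1 : ¬ A.valuation (E ω ω' - E ω ω) < 1 := by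
          rw [← Valuation.map_neg, neg_sub]; exact hEsep ω hω
        exact alpu_valuation_eq_one_of_isIntegral (((hE ω).2 ω').sub ((hE ω).2 ω)) h1
      have hne : E ω ω' - E ω ω ≠ 0 := by
        intro h
        rw [h, map_zero] at hv
        exact zero_ne_one hv
      exact inv_mul_cancel₀ hne
    · rw [Pi.single_eq_of_ne hω']
      rw [Finset.prod_eq_zero (Finset.mem_erase.mpr ⟨hω', Finset.mem_univ ω'⟩), zero_mul, mul_zero]
      rw [sub_self, mul_zero]
  rw [heq]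
  exact Submodule.smul_mem _ _ hfinal

end Indicator

end Fermat.Agent.Alpha
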