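/-
ALPHA (helper6), package UD, part 2d: **unramified descent for maximal orders.**
`𝒱` a valuation subring of `ℚ̄` over `ℓ`, `V` a finite `G_ℚ`-set with open stabilisers.  Every
`𝒱`-valued function `φ : V → ℚ̄` which is equivariant for the inertia group of `𝒱` lies in the
`𝒱`-span of the `G_ℚ`-equivariant functions with values integral over `ℤ_(ℓ)` (`alpu_span`).

Proof: `Ω` := the (finite) `G_ℚ`-orbit of `φ` in `Map(V, ℚ̄)` (conjugation action); by
`alpu_indicator_mem` the indicator of `φ` on `Ω` is `∑ a_k F_k` with `a_k ∈ 𝒱` and `F_k` equivariant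
with `F_k(ω) ω(x) ∈ 𝒱`; then `φ = ∑ a_k ψ_k`, `ψ_k(x) = ∑_ω F_k(ω) ω(x)`.
-/
import Fermat.Agent.Lib.Alpha.Unram.Indicator
import Fermat.Agent.Lib.Alpha.Hopf.IntVal

set_option autoImplicit false
set_option linter.style.haveILetI false
set_option linter.unusedSectionVars false

open scoped Pointwise

namespace Fermat.Agent.Alpha

open Fermat.Agent.CFT

local notation "Qb" => AlgebraicClosure ℚ
local notation "GQb" => (AlgebraicClosure ℚ ≃ₐ[ℚ] AlgebraicClosure ℚ)

/-- functions `V → ℚ̄`, with the conjugation action of `G_ℚ` -/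
@[ext] structure AlpuFn (V : Type) where
  /-- the underlying function -/
  fn : V → Qb

section Span

variable {V : Type} [MulAction GQb V]

noncomputable instance alpuFnMulAction : MulAction GQb (AlpuFn V) where
  smul γ f := ⟨fun x => γ (f.fn (γ⁻¹ • x))⟩
  one_smul f := by
    ext x
    show (1 : GQb) (f.fn ((1 : GQb)⁻¹ • x)) = f.fn x
    rw [inv_one, one_smul]
    rfl
  mul_smul γ γ' f := by
    ext x
    show (γ * γ') (f.fn ((γ * γ')⁻¹ • x)) = γ (γ' (f.fn (γ'⁻¹ • γ⁻¹ • x)))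
    rw [mul_inv_rev, mul_smul]
    rfl

theorem alpuFn_smul_fn (γ : GQb) (f : AlpuFn V) (x : V) :
    (γ • f).fn x = γ (f.fn (γ⁻¹ • x)) := rfl

theorem alpuFn_smul_fn_smul (γ : GQb) (f : AlpuFn V) (x : V) :
    (γ • f).fn (γ • x) = γ (f.fn x) := by
  rw [alpuFn_smul_fn, inv_smul_smul]

variable [Fintype V]

/-- the stabiliser of a function is open -/
theorem alpu_stabilizer_isOpen
    (hopen : ∀ x : V, ∃ L : IntermediateField ℚ Qb, FiniteDimensional ℚ L ∧
      ∀ σ : GQb, (∀ a ∈ L, σ a = a) → σ • x = x) (φ : AlpuFn V) :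
    IsOpen (MulAction.stabilizer GQb φ : Set GQb) := by
  classical
  choose Lx hLfin hLx using hopen
  haveI : ∀ x, FiniteDimensional ℚ (Lx x) := hLfin
  haveI : FiniteDimensional ℚ (IntermediateField.adjoin ℚ (Set.range φ.fn)) :=
    IntermediateField.finiteDimensional_adjoin fun x _ =>
      (Algebra.IsAlgebraic.isAlgebraic x).isIntegral
  set L : IntermediateField ℚ Qb := (⨆ x, Lx x) ⊔ IntermediateField.adjoin ℚ (Set.range φ.fn)
    with hL
  haveI : FiniteDimensional ℚ L := by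
    rw [hL]; infer_instance
  have hle : L.fixingSubgroup ≤ MulAction.stabilizer GQb φ := by
    intro σ hσ
    rw [IntermediateField.mem_fixingSubgroup_iff] at hσ
    have hσx : ∀ x : V, σ • x = x := fun x => hLx x σ fun a ha =>
      hσ a ((le_sup_left : (⨆ x, Lx x) ≤ L) ((le_iSup Lx x) ha))
    have hσφ : ∀ x : V, σ (φ.fn x) = φ.fn x := fun x =>
      hσ _ ((le_sup_right : _ ≤ L) (IntermediateField.subset_adjoin ℚ _ ⟨x, rfl⟩))
    rw [MulAction.mem_stabilizer_iff]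
    ext x
    rw [alpuFn_smul_fn]
    have : σ⁻¹ • x = x := by rw [inv_smul_eq_iff, hσx]
    rw [this, hσφ]
  exact Subgroup.isOpen_mono hle L.fixingSubgroup_isOpen

/-- **unramified descent for maximal orders** -/
theorem alpu_span (ℓ : ℕ) [Fact ℓ.Prime] (𝒱 : ValuationSubring Qb) (h𝒱 : 𝒱.LiesOverPrime ℓ)
    (hopen : ∀ x : V, ∃ L : IntermediateField ℚ Qb, FiniteDimensional ℚ L ∧
      ∀ σ : GQb, (∀ a ∈ L, σ a = a) → σ • x = x)
    (φ : V → Qb) (hφ : ∀ x, φ x ∈ 𝒱)
    (hI : ∀ τ ∈ 𝒱.inertiaSubgroupIn ℚ, ∀ x, φ (τ • x) = τ (φ x)) :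
    φ ∈ Submodule.span ↥𝒱 {ψ : V → Qb | (∀ (σ : GQb) (x : V), ψ (σ • x) = σ (ψ x)) ∧
      ∀ x, IsIntegral ↥(GaloisRep.ratLocalizedAt ℓ) (ψ x)} := by
  classical
  have hℓ : ℓ.Prime := Fact.out
  set φ' : AlpuFn V := ⟨φ⟩ with hφ'
  have hst_open := alpu_stabilizer_isOpen hopen φ'
  -- the orbit
  haveI : Finite ↥(MulAction.orbit GQb φ') := by
    haveI : Finite (GQb ⧸ MulAction.stabilizer GQb φ') :=
      Subgroup.quotient_finite_of_isOpen _ hst_open
    exact Finite.of_equiv _ (MulAction.orbitEquivQuotientStabilizer GQb φ').symm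
  cases nonempty_fintype ↥(MulAction.orbit GQb φ')
  set ω₀ : ↥(MulAction.orbit GQb φ') := ⟨φ', MulAction.mem_orbit_self φ'⟩ with hω₀
  have hstab : MulAction.stabilizer GQb ω₀ = MulAction.stabilizer GQb φ' := by
    ext σ
    rw [MulAction.mem_stabilizer_iff, MulAction.mem_stabilizer_iff, Subtype.ext_iff]
    rfl
  have hcl : IsClosed (MulAction.stabilizer GQb ω₀ : Set GQb) := by
    rw [hstab]
    exact Subgroup.isClosed_of_isOpen _ hst_open
  have hIst : 𝒱.inertiaSubgroupIn ℚ ≤ MulAction.stabilizer GQb ω₀ := by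
    intro τ hτ
    rw [hstab, MulAction.mem_stabilizer_iff]
    ext x
    rw [alpuFn_smul_fn]
    show τ (φ (τ⁻¹ • x)) = φ x
    rw [← hI τ hτ, smul_inv_smul]
  -- denominators
  set y : V → ↥(MulAction.orbit GQb φ') → Qb := fun x ω => ω.1.fn x with hy
  have hyD : ∀ x, ∀ d ∈ 𝒱.decompositionSubgroup ℚ, y x (d • ω₀) ∈ 𝒱 := by
    intro x d hd
    show d (φ (d⁻¹ • x)) ∈ 𝒱
    have h1 : d • 𝒱 = 𝒱 := MulAction.mem_stabilizer_iff.mp hd
    have h2 : d • φ (d⁻¹ • x) ∈ d • 𝒱 :=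
      ValuationSubring.smul_mem_pointwise_smul_iff.mpr (hφ _)
    rw [h1] at h2
    exact h2
  have hind := alpu_indicator_mem hℓ h𝒱 ω₀ hcl hIst y hyD
  -- the transfer map
  let T : (↥(MulAction.orbit GQb φ') → Qb) →ₗ[↥𝒱] (V → Qb) :=
    { toFun := fun F x => ∑ ω, F ω * ω.1.fn x
      map_add' := by
        intro F G
        funext x
        simp only [Pi.add_apply, add_mul, Finset.sum_add_distrib]
      map_smul' := by
        intro a F
        funext x
        simp only [Pi.smul_apply, RingHom.id_apply, Finset.smul_sum, smul_mul_assoc] }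
  have hTφ : T (Pi.single ω₀ (1 : Qb)) = φ := by
    funext x
    show ∑ ω, (Pi.single ω₀ (1 : Qb) : _ → Qb) ω * ω.1.fn x = φ x
    rw [Finset.sum_eq_single ω₀]
    · rw [Pi.single_eq_same, one_mul]
    · intro ω _ hω
      rw [Pi.single_eq_of_ne hω, zero_mul]
    · intro h; exact absurd (Finset.mem_univ _) h
  rw [← hTφ]
  have hmap := Submodule.mem_map_of_mem (f := T) hind
  rw [Submodule.map_span] at hmap
  refine Submodule.span_mono ?_ hmap
  rintro _ ⟨F, hF, rfl⟩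
  obtain ⟨hFeq, hFA, hFy⟩ := hF
  have hTeq : ∀ (σ : GQb) (x : V), T F (σ • x) = σ (T F x) := by
    intro σ x
    show ∑ ω, F ω * ω.1.fn (σ • x) = σ (∑ ω, F ω * ω.1.fn x)
    rw [map_sum, ← Equiv.sum_comp (MulAction.toPerm σ)
      (fun ω : ↥(MulAction.orbit GQb φ') => F ω * ω.1.fn (σ • x))]
    refine Finset.sum_congr rfl fun ω _ => ?_
    show F (σ • ω) * (σ • ω).1.fn (σ • x) = σ (F ω * ω.1.fn x)
    rw [hFeq, map_mul]
    congr 1
    exact alpuFn_smul_fn_smul σ ω.1 x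
  have hTA : ∀ x : V, T F x ∈ 𝒱 := by
    intro x
    show ∑ ω, F ω * ω.1.fn x ∈ 𝒱
    exact 𝒱.toSubring.sum_mem fun ω _ => hFy x ω
  refine ⟨hTeq, fun x => alph_isIntegral_of_conj_mem 𝒱 h𝒱 hℓ _ fun σ => ?_⟩
  rw [← hTeq]
  exact hTA _

end Span

end Fermat.Agent.Alpha
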